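/-
PROJECT W (S52, the 3-5 switch), leaf T3/Generic, brick (3a), first half (helper18):
EVERY PAIR `(h, k)` WITH `k² + h³ ≠ 0` IS `(H(P₀), T(P₀))` FOR A POINT `P₀ = (u, v)` OVER AN
ALGEBRAICALLY CLOSED FIELD OF CHARACTERISTIC ZERO, where

  `f = u v (u¹⁰ + 11 u⁵ v⁵ - v¹⁰)`,
  `H = -(u²⁰ + v²⁰) + 228 (u¹⁵ v⁵ - u⁵ v¹⁵) - 494 u¹⁰ v¹⁰`,
  `T = (u³⁰ + v³⁰) + 522 (u²⁵ v⁵ - u⁵ v²⁵) - 10005 (u²⁰ v¹⁰ + u¹⁰ v²⁰)`

are Klein's icosahedral forms, `T² + H³ = 1728 f⁵`.

Proof: put `u = s v`; then `H = v²⁰ H(s,1)`, `T = v³⁰ T(s,1)`.  Take a root `s` of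
`h³ T(s,1)² - k² H(s,1)³` (degree 60, leading coefficient `h³ + k²`), and `v` with
`v¹⁰ = k H(s,1) / (h T(s,1))`.  The forms `H(s,1)`, `T(s,1)` have no common root: a Bezout identity in
`z = s⁵` with constant `2⁴ 3² 5¹⁰`.  The cases `h = 0`, `k = 0` use a root of `H(s,1)`, `T(s,1)`.
-/
import Mathlib

set_option autoImplicit false

namespace Fermat.Agent.S52.T3.Generic.Point

open Polynomial

section Forms

variable {R : Type*} [CommRing R]

/-- Klein's invariant of degree 12 (the vertices of the icosahedron). -/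
def kf (u v : R) : R := u * v * (u ^ 10 + 11 * u ^ 5 * v ^ 5 - v ^ 10)

/-- Klein's invariant of degree 20 (the face centres). -/
def kH (u v : R) : R :=
  -(u ^ 20 + v ^ 20) + 228 * (u ^ 15 * v ^ 5 - u ^ 5 * v ^ 15) - 494 * u ^ 10 * v ^ 10

/-- Klein's invariant of degree 30 (the edge midpoints). -/
def kT (u v : R) : R :=
  (u ^ 30 + v ^ 30) + 522 * (u ^ 25 * v ^ 5 - u ^ 5 * v ^ 25)
    - 10005 * (u ^ 20 * v ^ 10 + u ^ 10 * v ^ 20)

theorem kf_def (u v : R) : kf u v = u * v * (u ^ 10 + 11 * u ^ 5 * v ^ 5 - v ^ 10) := rfl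

theorem kH_def (u v : R) : kH u v =
    -(u ^ 20 + v ^ 20) + 228 * (u ^ 15 * v ^ 5 - u ^ 5 * v ^ 15) - 494 * u ^ 10 * v ^ 10 := rfl

theorem kT_def (u v : R) : kT u v =
    (u ^ 30 + v ^ 30) + 522 * (u ^ 25 * v ^ 5 - u ^ 5 * v ^ 25)
      - 10005 * (u ^ 20 * v ^ 10 + u ^ 10 * v ^ 20) := rfl

/-- Klein's syzygy. -/
theorem syzygy (u v : R) : kT u v ^ 2 + kH u v ^ 3 = 1728 * kf u v ^ 5 := by
  unfold kT kH kf
  ring

/-- Homogeneity of degree 12, 20, 30. -/
theorem kf_smul (c u v : R) : kf (c * u) (c * v) = c ^ 12 * kf u v := by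
  unfold kf
  ring

theorem kH_smul (c u v : R) : kH (c * u) (c * v) = c ^ 20 * kH u v := by
  unfold kH
  ring

theorem kT_smul (c u v : R) : kT (c * u) (c * v) = c ^ 30 * kT u v := by
  unfold kT
  ring

theorem kH_dehom (s v : R) : kH (s * v) v = v ^ 20 * kH s 1 := by
  unfold kH
  ring

theorem kT_dehom (s v : R) : kT (s * v) v = v ^ 30 * kT s 1 := by
  unfold kT
  ring

theorem kf_dehom (s v : R) : kf (s * v) v = v ^ 12 * kf s 1 := by
  unfold kf
  ring

theorem map_kf {S : Type*} [CommRing S] (φ : R →+* S) (u v : R) :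
    φ (kf u v) = kf (φ u) (φ v) := by
  simp [kf, map_ofNat]

theorem map_kH {S : Type*} [CommRing S] (φ : R →+* S) (u v : R) :
    φ (kH u v) = kH (φ u) (φ v) := by
  simp [kH, map_ofNat]

theorem map_kT {S : Type*} [CommRing S] (φ : R →+* S) (u v : R) :
    φ (kT u v) = kT (φ u) (φ v) := by
  simp [kT, map_ofNat]

/-- The Bezout identity of `H(s,1)` and `T(s,1)`, in `z = s⁵`; the constant is `2⁴ 3² 5¹⁰`. -/
theorem bezout (s : R) :
    (-950431323 - 20237705983 * s ^ 5 + 103588896 * s ^ 10 - 20237108822 * s ^ 15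
        + 1055557719 * s ^ 20 + 2022161 * s ^ 25) * kH s 1
      + (455818677 + 1001301767 * s ^ 5 - 461063031 * s ^ 10 + 2022161 * s ^ 15) * kT s 1
      = 1406250000 := by
  unfold kH kT
  ring

end Forms

section Field

variable {K : Type*} [Field K]

/-- `H(s,1)` and `T(s,1)` have no common root when `30` is invertible. -/
theorem not_common_root (h30 : (30 : K) ≠ 0) (s : K) (hH : kH s 1 = 0) (hT : kT s 1 = 0) : False := by
  have hb := bezout s
  rw [hH, hT, mul_zero, mul_zero, add_zero] at hb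
  have h2 : (2 : K) ≠ 0 := fun h => h30 (by linear_combination 15 * h)
  have h3 : (3 : K) ≠ 0 := fun h => h30 (by linear_combination 10 * h)
  have h5 : (5 : K) ≠ 0 := fun h => h30 (by linear_combination 6 * h)
  have : (2 : K) ^ 4 * 3 ^ 2 * 5 ^ 10 ≠ 0 :=
    mul_ne_zero (mul_ne_zero (pow_ne_zero _ h2) (pow_ne_zero _ h3)) (pow_ne_zero _ h5)
  exact this (by rw [hb]; norm_num)

/-- The polynomial `H(X,1)`. -/
theorem natDegree_kH_X : (kH (X : K[X]) 1).natDegree = 20 := by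
  unfold kH
  simp only [one_pow, mul_one]
  compute_degree
  case coeff_ne_zero =>
    have h0 : coeff (1 : K[X]) 20 = 0 := by simp [coeff_one]
    rw [h0]
    norm_num
  all_goals norm_num

theorem natDegree_kT_X : (kT (X : K[X]) 1).natDegree = 30 := by
  unfold kT
  simp only [one_pow, mul_one]
  compute_degree!

theorem natDegree_pencil (h k : K) (hd : k ^ 2 + h ^ 3 ≠ 0) :
    (C (h ^ 3) * kT (X : K[X]) 1 ^ 2 - C (k ^ 2) * kH (X : K[X]) 1 ^ 3).natDegree = 60 := by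
  unfold kT kH
  simp only [one_pow, mul_one]
  compute_degree
  case coeff_ne_zero =>
    have h0 : coeff (1 : K[X]) 20 = 0 := by simp [coeff_one]
    rw [h0]
    intro h1
    exact hd (by linear_combination h1)
  all_goals norm_num

theorem eval_kH_X (s : K) : (kH (X : K[X]) 1).eval s = kH s 1 := by
  simp [kH]

theorem eval_kT_X (s : K) : (kT (X : K[X]) 1).eval s = kT s 1 := by
  simp [kT]

theorem exists_root_kH [IsAlgClosed K] : ∃ s : K, kH s 1 = 0 := by
  obtain ⟨s, hs⟩ := IsAlgClosed.exists_root (kH (X : K[X]) 1)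
    (by rw [degree_eq_natDegree (fun h0 => by
          have := natDegree_kH_X (K := K); rw [h0, natDegree_zero] at this; omega),
        natDegree_kH_X]; norm_num)
  exact ⟨s, by rw [← eval_kH_X]; exact hs⟩

theorem exists_root_kT [IsAlgClosed K] : ∃ s : K, kT s 1 = 0 := by
  obtain ⟨s, hs⟩ := IsAlgClosed.exists_root (kT (X : K[X]) 1)
    (by rw [degree_eq_natDegree (fun h0 => by
          have := natDegree_kT_X (K := K); rw [h0, natDegree_zero] at this; omega),
        natDegree_kT_X]; norm_num)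
  exact ⟨s, by rw [← eval_kT_X]; exact hs⟩

theorem exists_root_pencil [IsAlgClosed K] (h k : K) (hd : k ^ 2 + h ^ 3 ≠ 0) :
    ∃ s : K, h ^ 3 * kT s 1 ^ 2 = k ^ 2 * kH s 1 ^ 3 := by
  obtain ⟨s, hs⟩ := IsAlgClosed.exists_root
    (C (h ^ 3) * kT (X : K[X]) 1 ^ 2 - C (k ^ 2) * kH (X : K[X]) 1 ^ 3)
    (by rw [degree_eq_natDegree (fun h0 => by
          have := natDegree_pencil h k hd; rw [h0, natDegree_zero] at this; omega),
        natDegree_pencil h k hd]; norm_num)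
  refine ⟨s, ?_⟩
  have := hs
  rw [IsRoot.def, eval_sub, eval_mul, eval_mul, eval_pow, eval_pow, eval_C, eval_C, eval_kH_X,
    eval_kT_X] at this
  exact sub_eq_zero.mp this

/-- **(3a), first half.**  Over an algebraically closed field in which `30` is invertible every
pair `(h, k)` with `k² + h³ ≠ 0` is the pair of values `(H, T)` of Klein's forms at a point. -/
theorem exists_point_of_thirty [IsAlgClosed K] (h30 : (30 : K) ≠ 0) (h k : K)
    (hd : k ^ 2 + h ^ 3 ≠ 0) : ∃ u v : K, kH u v = h ∧ kT u v = k := by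
  by_cases hh : h = 0
  · have hk : k ≠ 0 := by
      rintro rfl
      exact hd (by rw [hh]; ring)
    obtain ⟨s, hs⟩ := exists_root_kH (K := K)
    have hT : kT s 1 ≠ 0 := fun h2 => not_common_root h30 s hs h2
    obtain ⟨v, hv⟩ := IsAlgClosed.exists_pow_nat_eq (k / kT s 1) (by norm_num : 0 < 30)
    refine ⟨s * v, v, ?_, ?_⟩
    · rw [kH_dehom, hs, mul_zero, hh]
    · rw [kT_dehom, hv, div_mul_cancel₀ _ hT]
  by_cases hk : k = 0
  · obtain ⟨s, hs⟩ := exists_root_kT (K := K)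
    have hH : kH s 1 ≠ 0 := fun h1 => not_common_root h30 s h1 hs
    obtain ⟨v, hv⟩ := IsAlgClosed.exists_pow_nat_eq (h / kH s 1) (by norm_num : 0 < 20)
    refine ⟨s * v, v, ?_, ?_⟩
    · rw [kH_dehom, hv, div_mul_cancel₀ _ hH]
    · rw [kT_dehom, hs, mul_zero, hk]
  obtain ⟨s, hs⟩ := exists_root_pencil h k hd
  have hH : kH s 1 ≠ 0 := by
    intro h1
    rw [h1] at hs
    have h2 : kT s 1 = 0 := by
      have : h ^ 3 * kT s 1 ^ 2 = 0 := by rw [hs]; ring
      rcases mul_eq_zero.mp this with h3 | h3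
      · exact absurd (pow_eq_zero_iff (by norm_num) |>.mp h3) hh
      · exact pow_eq_zero_iff (by norm_num) |>.mp h3
    exact not_common_root h30 s h1 h2
  have hT : kT s 1 ≠ 0 := by
    intro h2
    rw [h2] at hs
    have h1 : kH s 1 = 0 := by
      have : k ^ 2 * kH s 1 ^ 3 = 0 := by rw [← hs]; ring
      rcases mul_eq_zero.mp this with h3 | h3
      · exact absurd (pow_eq_zero_iff (by norm_num) |>.mp h3) hk
      · exact pow_eq_zero_iff (by norm_num) |>.mp h3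
    exact hH h1
  obtain ⟨v, hv⟩ := IsAlgClosed.exists_pow_nat_eq (k * kH s 1 / (h * kT s 1)) (by norm_num : 0 < 10)
  have hhT : h * kT s 1 ≠ 0 := mul_ne_zero hh hT
  have hv20 : v ^ 20 = (k * kH s 1 / (h * kT s 1)) ^ 2 := by rw [← hv]; ring
  have hv30 : v ^ 30 = (k * kH s 1 / (h * kT s 1)) ^ 3 := by rw [← hv]; ring
  refine ⟨s * v, v, ?_, ?_⟩
  · rw [kH_dehom, hv20, div_pow, div_mul_eq_mul_div, div_eq_iff (pow_ne_zero _ hhT)]
    linear_combination (-1 : K) * hs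
  · rw [kT_dehom, hv30, div_pow, div_mul_eq_mul_div, div_eq_iff (pow_ne_zero _ hhT)]
    linear_combination (-k * kT s 1) * hs

/-- The same in characteristic zero, with the nonvanishing of `f` at the point. -/
theorem exists_point [IsAlgClosed K] [CharZero K] (h k : K) (hd : k ^ 2 + h ^ 3 ≠ 0) :
    ∃ u v : K, kH u v = h ∧ kT u v = k ∧ kf u v ≠ 0 := by
  obtain ⟨u, v, hH, hT⟩ := exists_point_of_thirty (by norm_num) h k hd
  refine ⟨u, v, hH, hT, ?_⟩
  intro hf
  have := syzygy u v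
  rw [hH, hT, hf] at this
  exact hd (by rw [this]; ring)

/-- The raw literal of `exists_point`. -/
theorem exists_point_raw [IsAlgClosed K] [CharZero K] (h k : K) (hd : k ^ 2 + h ^ 3 ≠ 0) :
    ∃ u v : K,
      -(u ^ 20 + v ^ 20) + 228 * (u ^ 15 * v ^ 5 - u ^ 5 * v ^ 15) - 494 * u ^ 10 * v ^ 10 = h ∧
      (u ^ 30 + v ^ 30) + 522 * (u ^ 25 * v ^ 5 - u ^ 5 * v ^ 25)
        - 10005 * (u ^ 20 * v ^ 10 + u ^ 10 * v ^ 20) = k ∧
      u * v * (u ^ 10 + 11 * u ^ 5 * v ^ 5 - v ^ 10) ≠ 0 :=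
  exists_point h k hd

/-- The normalisation of the short model `y² = x³ + 3 h x + 2 k = x³ + 27 H(P₀) x + 54 T(P₀)`:
a point `P₀` with `27 H(P₀) = 3 h`, `54 T(P₀) = 2 k`. -/
theorem exists_point_short [IsAlgClosed K] [CharZero K] (h k : K) (hd : k ^ 2 + h ^ 3 ≠ 0) :
    ∃ u v : K, 3 * h = 27 * kH u v ∧ 2 * k = 54 * kT u v ∧ kf u v ≠ 0 := by
  have hd' : (k / 27) ^ 2 + (h / 9) ^ 3 ≠ 0 := by
    have h1 : (k / 27) ^ 2 + (h / 9) ^ 3 = (k ^ 2 + h ^ 3) / 729 := by ring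
    rw [h1]
    exact div_ne_zero hd (by norm_num)
  obtain ⟨u, v, hH, hT, hf⟩ := exists_point (h / 9) (k / 27) hd'
  refine ⟨u, v, ?_, ?_, hf⟩
  · rw [hH]; ring
  · rw [hT]; ring

end Field

end Fermat.Agent.S52.T3.Generic.Point
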