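import Mathlib

/-!
# PROJECT W (S52), block T3/Generic, step (3b): at a cusp the 3-division quartic has at most one root

Setting: `K` a field of characteristic `0`, `A B : K[X]` (the coefficients of a family
`y² = x³ + A x + B` over the `X`-line), `θ : K` a point where `4A³ + 27B²` vanishes to order exactly
`5` and `A θ ≠ 0` (a cusp of the icosahedral family: multiplicative fibre, `v(Δ) = 5`).

`psi3 A B x = 3x⁴ + 6Ax² + 12Bx - A²` is the 3-division polynomial, `quartic A B y` the monic form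
used in the seam (`quartic A B (3x) = 27 psi3 A B x`).

**`root_unique`** : `psi3 A B ·` has at most one root in `K[X]`.  Everything happens inside the
polynomial ring, the valuation is the multiplicity of `X - θ`; no Laurent series, no completion, no
square root.  With `c = x³ + Ax + B`, `c' = 3x² + A`:

* `psi3 = 12 x c - c'²` and `4A³ + 27B² - 3c(9c - 2xc') = -(4c' - 9x²) psi3` (ring identities);
* a root with `c'(x)(θ) = 0` has `ord c' = m ≥ 1`, `ord c = 2m`, `ord (9c - 2xc') = m`, so
  `ord (4A³+27B²) = 3m ≠ 5`: impossible (`false_of_dcub_root`);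
* at `θ` the fibre is nodal, `A θ = -3a²`, `B θ = 2a³`, `psi3 θ = 3 (X - a)³ (X + 3a)`, so every
  root takes the value `-3a` at `θ` (`eval_root`), where `psi3' = 12 c ≠ 0`;
* two roots with the same value at a point where the difference quotient does not vanish coincide.
-/

set_option autoImplicit false

namespace Fermat.Agent.S52.T3.Generic.Cusp

open Polynomial

section Algebra

variable {R : Type*} [CommRing R]

/-- The 3-division polynomial of `y² = x³ + A x + B`. -/
def psi3 (A B x : R) : R := 3 * x ^ 4 + 6 * A * x ^ 2 + 12 * B * x - A ^ 2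

/-- The monic form of the 3-division polynomial in `y = 3x`. -/
def quartic (A B y : R) : R := y ^ 4 + 18 * A * y ^ 2 + 108 * B * y - 27 * A ^ 2

/-- The cubic `x³ + A x + B`. -/
def cub (A B x : R) : R := x ^ 3 + A * x + B

/-- Its derivative `3x² + A`. -/
def dcub (A x : R) : R := 3 * x ^ 2 + A

/-- The difference quotient of `psi3`. -/
def dq (A B x y : R) : R :=
  3 * (x ^ 3 + x ^ 2 * y + x * y ^ 2 + y ^ 3) + 6 * A * (x + y) + 12 * B

theorem quartic_three_mul (A B x : R) : quartic A B (3 * x) = 27 * psi3 A B x := by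
  unfold quartic psi3; ring

theorem psi3_eq (A B x : R) : psi3 A B x = 12 * x * cub A B x - dcub A x ^ 2 := by
  unfold psi3 cub dcub; ring

theorem disc_sub (A B x : R) :
    4 * A ^ 3 + 27 * B ^ 2 - 3 * cub A B x * (9 * cub A B x - 2 * x * dcub A x) =
      -(4 * dcub A x - 9 * x ^ 2) * psi3 A B x := by
  unfold psi3 cub dcub; ring

theorem psi3_sub (A B x y : R) : psi3 A B x - psi3 A B y = (x - y) * dq A B x y := by
  unfold psi3 dq; ring

theorem dq_self (A B x : R) : dq A B x x = 12 * cub A B x := by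
  unfold dq cub; ring

/-- The nodal factorisation. -/
theorem psi3_nodal (a x : R) : psi3 (-3 * a ^ 2) (2 * a ^ 3) x = 3 * (x - a) ^ 3 * (x + 3 * a) := by
  unfold psi3; ring

end Algebra

section Eval

variable {K : Type*} [Field K]

theorem eval_psi3 (A B x : K[X]) (θ : K) :
    (psi3 A B x).eval θ = psi3 (A.eval θ) (B.eval θ) (x.eval θ) := by
  simp [psi3]

theorem eval_dcub (A x : K[X]) (θ : K) : (dcub A x).eval θ = dcub (A.eval θ) (x.eval θ) := by
  simp [dcub]

theorem eval_dq (A B x y : K[X]) (θ : K) :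
    (dq A B x y).eval θ = dq (A.eval θ) (B.eval θ) (x.eval θ) (y.eval θ) := by
  simp [dq]

end Eval

section Main

variable {K : Type*} [Field K] [CharZero K]

/-- The hypotheses at a cusp, bundled: `4A³ + 27B² = (X - θ)⁵ D`, `D θ ≠ 0`, `A θ ≠ 0`. -/
structure IsCusp (A B : K[X]) (θ : K) : Prop where
  exists_D : ∃ D : K[X], 4 * A ^ 3 + 27 * B ^ 2 = (X - C θ) ^ 5 * D ∧ D.eval θ ≠ 0
  evalA : A.eval θ ≠ 0

omit [CharZero K] in
theorem IsCusp.disc_eval {A B : K[X]} {θ : K} (h : IsCusp A B θ) :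
    4 * A.eval θ ^ 3 + 27 * B.eval θ ^ 2 = 0 := by
  obtain ⟨D, hD, -⟩ := h.exists_D
  have := congrArg (eval θ) hD
  simpa using this

/-- (i) No root of `psi3` passes through the triple point of the nodal fibre. -/
theorem false_of_dcub_root {A B : K[X]} {θ : K} (h : IsCusp A B θ) (x : K[X])
    (hx : psi3 A B x = 0) (h0 : (dcub A x).eval θ = 0) : False := by
  obtain ⟨D, hD, hD0⟩ := h.exists_D
  have hA := h.evalA
  -- `x θ ≠ 0`
  have hxθ : x.eval θ ≠ 0 := by
    intro hx0
    rw [eval_dcub, dcub, hx0] at h0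
    apply hA
    simpa using h0
  have hx_ne : x ≠ 0 := fun e => hxθ (by rw [e]; simp)
  have key1 : dcub A x ^ 2 = 12 * x * cub A B x := by
    have := psi3_eq A B x
    rw [hx] at this
    linear_combination this
  have key2 : 4 * A ^ 3 + 27 * B ^ 2 = 3 * cub A B x * (9 * cub A B x - 2 * x * dcub A x) := by
    have := disc_sub A B x
    rw [hx] at this
    linear_combination this
  have hXne : (X - C θ : K[X]) ≠ 0 := X_sub_C_ne_zero θ
  have hD_ne : D ≠ 0 := fun e => hD0 (by rw [e]; simp)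
  have hdisc_ne : 4 * A ^ 3 + 27 * B ^ 2 ≠ 0 := by
    rw [hD]; exact mul_ne_zero (pow_ne_zero _ hXne) hD_ne
  have h12 : (12 : K[X]) ≠ 0 := by
    have : (12 : K[X]) = C (12 : K) := (map_ofNat C 12).symm
    rw [this]
    exact C_ne_zero.mpr (by norm_num)
  have hc'ne : dcub A x ≠ 0 := by
    intro e
    rw [e] at key1
    have h1 : (12 : K[X]) * x * cub A B x = 0 := by rw [← key1]; ring
    have h2 : cub A B x = 0 := by
      rcases mul_eq_zero.mp h1 with h3 | h3
      · rcases mul_eq_zero.mp h3 with h4 | h4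
        · exact absurd h4 h12
        · exact absurd h4 hx_ne
      · exact h3
    apply hdisc_ne
    rw [key2, h2]; ring
  -- factor `c' = (X - θ)^m u`
  set m := rootMultiplicity θ (dcub A x) with hm
  have hmpos : 0 < m := (rootMultiplicity_pos hc'ne).mpr h0
  obtain ⟨u, hu, hudvd⟩ := exists_eq_pow_rootMultiplicity_mul_and_not_dvd (dcub A x) hc'ne θ
  rw [← hm] at hu
  have huθ : u.eval θ ≠ 0 := fun e => hudvd (dvd_iff_isRoot.mpr e)
  set P : K[X] := (X - C θ) ^ m with hP
  have hPne : P ≠ 0 := pow_ne_zero _ hXne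
  have hPθ : P.eval θ = 0 := by
    rw [hP, eval_pow, eval_sub, eval_X, eval_C, sub_self, zero_pow hmpos.ne']
  -- `(X - θ)^(2m) ∣ c`
  have hprime : Prime (X - C θ : K[X]) := prime_X_sub_C θ
  have hnd : ¬ (X - C θ : K[X]) ∣ 12 * x := by
    rw [dvd_iff_isRoot]
    intro e
    have : (12 : K) * x.eval θ = 0 := by simpa [IsRoot] using e
    rcases mul_eq_zero.mp this with h3 | h3
    · norm_num at h3
    · exact hxθ h3
  have hdvd : (X - C θ : K[X]) ^ (2 * m) ∣ 12 * x * cub A B x := by
    rw [← key1, hu]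
    refine ⟨u ^ 2, ?_⟩
    rw [hP]
    ring
  obtain ⟨w, hw⟩ := hprime.pow_dvd_of_dvd_mul_left (2 * m) hnd hdvd
  have hw' : cub A B x = P ^ 2 * w := by
    rw [hw, hP, ← pow_mul, mul_comm m 2]
  -- `u² = 12 x w`
  have hu2 : u ^ 2 = 12 * x * w := by
    have h1 : P ^ 2 * (u ^ 2 - 12 * x * w) = 0 := by
      have := key1
      rw [hu, hw'] at this
      linear_combination this
    rcases mul_eq_zero.mp h1 with h3 | h3
    · exact absurd h3 (pow_ne_zero _ hPne)
    · linear_combination h3
  have hwθ : w.eval θ ≠ 0 := by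
    intro e
    have := congrArg (eval θ) hu2
    simp only [eval_pow, eval_mul, e, mul_zero] at this
    exact huθ ((pow_eq_zero_iff (two_ne_zero)).mp this)
  -- the discriminant is `(X - θ)^(3m) E`, `E θ ≠ 0`
  set E : K[X] := 3 * w * (9 * P * w - 2 * x * u) with hE
  have hdiscE : 4 * A ^ 3 + 27 * B ^ 2 = E * (X - C θ) ^ (3 * m) := by
    rw [key2, hw', hu, hE]
    have : (X - C θ : K[X]) ^ (3 * m) = P ^ 3 := by rw [hP, ← pow_mul, mul_comm]
    rw [this]
    ring
  have hEθ : E.eval θ ≠ 0 := by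
    rw [hE]
    simp only [eval_mul, eval_sub, hPθ, mul_zero, zero_mul, zero_sub]
    have h3 : (eval θ (3 : K[X])) = 3 := by simp
    have h2 : (eval θ (2 : K[X])) = 2 := by simp
    rw [h3, h2]
    have h3' : (3 : K) ≠ 0 := by norm_num
    have h2' : (2 : K) ≠ 0 := by norm_num
    exact mul_ne_zero (mul_ne_zero h3' hwθ) (neg_ne_zero.mpr (mul_ne_zero (mul_ne_zero h2' hxθ) huθ))
  have hE_ne : E ≠ 0 := fun e => hEθ (by rw [e]; simp)
  -- compare multiplicities
  have m1 : rootMultiplicity θ (4 * A ^ 3 + 27 * B ^ 2) = 5 := by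
    rw [hD, mul_comm, rootMultiplicity_mul_X_sub_C_pow hD_ne,
      rootMultiplicity_eq_zero (show ¬ IsRoot D θ from hD0)]
  have m2 : rootMultiplicity θ (4 * A ^ 3 + 27 * B ^ 2) = 3 * m := by
    rw [hdiscE, rootMultiplicity_mul_X_sub_C_pow hE_ne,
      rootMultiplicity_eq_zero (show ¬ IsRoot E θ from hEθ), zero_add]
  omega

/-- (ii) Every root of `psi3` takes the value `9 B(θ) / (2 A(θ))` at the cusp. -/
theorem eval_root {A B : K[X]} {θ : K} (h : IsCusp A B θ) (x : K[X]) (hx : psi3 A B x = 0) :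
    x.eval θ = 9 * B.eval θ / (2 * A.eval θ) := by
  have hA := h.evalA
  have hdisc := h.disc_eval
  have h0 : (dcub A x).eval θ ≠ 0 := fun e => false_of_dcub_root h x hx e
  set A0 := A.eval θ with hA0
  set B0 := B.eval θ with hB0
  set x0 := x.eval θ with hx0
  set a : K := -3 * B0 / (2 * A0) with ha
  have h2A : (2 * A0) ≠ 0 := mul_ne_zero two_ne_zero hA
  have hAa : A0 = -3 * a ^ 2 := by
    rw [ha]; field_simp; linear_combination (1 : K) * hdisc
  have hBa : B0 = 2 * a ^ 3 := by
    rw [ha]; field_simp; linear_combination (B0) * hdisc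
  have hpsi : psi3 A0 B0 x0 = 0 := by
    have := congrArg (eval θ) hx
    rwa [eval_psi3, eval_zero] at this
  rw [hAa, hBa, psi3_nodal] at hpsi
  have hne : x0 - a ≠ 0 := by
    intro e
    apply h0
    rw [eval_dcub, dcub, ← hx0, ← hA0, hAa]
    have : x0 = a := by linear_combination e
    rw [this]; ring
  have h3 : (3 : K) ≠ 0 := by norm_num
  have hx3a : x0 + 3 * a = 0 := by
    rcases mul_eq_zero.mp hpsi with h4 | h4
    · rcases mul_eq_zero.mp h4 with h5 | h5
      · exact absurd h5 h3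
      · exact absurd ((pow_eq_zero_iff (by norm_num)).mp h5) hne
    · exact h4
  have : x0 = -3 * a := by linear_combination hx3a
  rw [this, ha]; field_simp; ring

/-- (iii) **At a cusp the 3-division polynomial has at most one root in `K[X]`.** -/
theorem root_unique {A B : K[X]} {θ : K} (h : IsCusp A B θ) (x₁ x₂ : K[X])
    (h₁ : psi3 A B x₁ = 0) (h₂ : psi3 A B x₂ = 0) : x₁ = x₂ := by
  have hA := h.evalA
  have hdisc := h.disc_eval
  have e₁ := eval_root h x₁ h₁
  have e₂ := eval_root h x₂ h₂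
  have hsub : (x₁ - x₂) * dq A B x₁ x₂ = 0 := by
    rw [← psi3_sub, h₁, h₂, sub_zero]
  rcases mul_eq_zero.mp hsub with h3 | h3
  · exact sub_eq_zero.mp h3
  · exfalso
    have := congrArg (eval θ) h3
    rw [eval_dq, eval_zero, e₁, e₂, dq_self] at this
    set A0 := A.eval θ with hA0
    set B0 := B.eval θ with hB0
    have h2A : (2 * A0) ≠ 0 := mul_ne_zero two_ne_zero hA
    have h12 : (12 : K) ≠ 0 := by norm_num
    have hc : cub A0 B0 (9 * B0 / (2 * A0)) = 0 := by
      rcases mul_eq_zero.mp this with h4 | h4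
      · exact absurd h4 h12
      · exact h4
    -- `c(θ, -3a) = -8 B(θ)`, and `B(θ) ≠ 0` because `27 B(θ)² = -4 A(θ)³ ≠ 0`
    have hB : B0 ≠ 0 := by
      intro e
      rw [e] at hdisc
      have : A0 ^ 3 = 0 := by linear_combination (1 / 4 : K) * hdisc
      exact hA ((pow_eq_zero_iff (by norm_num)).mp this)
    set q : K := 9 * B0 / (2 * A0) with hqdef
    have hq : q * (2 * A0) = 9 * B0 := by rw [hqdef]; field_simp
    unfold cub at hc
    have h7 : 729 * B0 ^ 3 + 44 * A0 ^ 3 * B0 = 0 := by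
      linear_combination (2 * A0) ^ 3 * hc -
        ((9 * B0) ^ 2 + 9 * B0 * (q * (2 * A0)) + (q * (2 * A0)) ^ 2 + 4 * A0 ^ 3) * hq
    have h8 : (64 : K) * (A0 ^ 3 * B0) = 0 := by
      linear_combination (-1 : K) * h7 + 27 * B0 * hdisc
    have hA3 : A0 ^ 3 ≠ 0 := pow_ne_zero _ hA
    exact (mul_ne_zero (by norm_num) (mul_ne_zero hA3 hB)) h8

/-- The same for the monic quartic of the seam: at most one root `y ∈ K[X]`. -/
theorem quartic_root_unique {A B : K[X]} {θ : K} (h : IsCusp A B θ) (y₁ y₂ : K[X])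
    (h₁ : quartic A B y₁ = 0) (h₂ : quartic A B y₂ = 0) : y₁ = y₂ := by
  have h3 : (C (3 : K) : K[X]) * C (3⁻¹ : K) = 1 := by
    rw [← C_mul]; simp
  have conv : ∀ y : K[X], quartic A B y = 0 → psi3 A B (C (3⁻¹ : K) * y) = 0 := by
    intro y hy
    have e : y = 3 * (C (3⁻¹ : K) * y) := by
      have : (3 : K[X]) = C (3 : K) := (map_ofNat C 3).symm
      rw [this, ← mul_assoc, h3, one_mul]
    rw [e, quartic_three_mul] at hy
    have h27 : (27 : K[X]) ≠ 0 := by
      have : (27 : K[X]) = C (27 : K) := (map_ofNat C 27).symm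
      rw [this]; exact C_ne_zero.mpr (by norm_num)
    exact (mul_eq_zero.mp hy).resolve_left h27
  have := root_unique h _ _ (conv y₁ h₁) (conv y₂ h₂)
  have hC : (C (3⁻¹ : K) : K[X]) ≠ 0 := C_ne_zero.mpr (by norm_num)
  exact mul_left_cancel₀ hC this

end Main

end Fermat.Agent.S52.T3.Generic.Cusp
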