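/-
PROJECT W (S52, the 3-5 switch), leaf (T3)/(H1), step (3c) of the tree of record (helper13):
GALOIS DESCENT OF THE UNIQUE ROOT.

`Kb` is an algebraic closure of `ℚ`.  For `A B : ℚ[X]` in the cusp situation of helper18's `Cusp.lean`
(`A(0) ≠ 0`, `4A³ + 27B² = X⁵ D`, `D(0) ≠ 0`), a root `y ∈ Kb[X]` of the 3-division
quartic is the ONLY root in `Kb[X]`; every `σ ∈ Gal(Kb/ℚ)` maps roots to roots (the coefficients are
rational), so `σ y = y`, and `y` has rational coefficients: `y ∈ ℚ[X]`.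
-/
import Fermat.Agent.S52.T3.Generic.Cusp

set_option autoImplicit false

namespace Fermat.Agent.S52.T3.Generic.Descent

open Polynomial
open Fermat.Agent.S52.T3.Generic.Cusp

variable {Kb : Type*} [Field Kb] [Algebra ℚ Kb] [IsAlgClosure ℚ Kb]

/-- A polynomial over `Kb` fixed by the coefficientwise action of every `σ ∈ Gal(Kb/ℚ)` comes from
`ℚ[X]`. -/
theorem exists_map_eq_of_fixed (y : Kb[X])
    (hfix : ∀ σ : Kb ≃ₐ[ℚ] Kb, y.map (σ : Kb →+* Kb) = y) :
    ∃ Y : ℚ[X], Y.map (algebraMap ℚ Kb) = y := by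
  have hmem : y ∈ Polynomial.lifts (algebraMap ℚ Kb) := by
    rw [Polynomial.lifts_iff_coeff_lifts]
    intro i
    rw [InfiniteGalois.mem_range_algebraMap_iff_fixed]
    intro σ
    have h := congrArg (fun p : Kb[X] => p.coeff i) (hfix σ)
    simpa [Polynomial.coeff_map] using h
  exact (Polynomial.mem_lifts y).mp hmem

/-- The quartic commutes with ring homomorphisms. -/
theorem map_quartic {R S : Type*} [CommRing R] [CommRing S] (φ : R →+* S) (A B y : R) :
    φ (quartic A B y) = quartic (φ A) (φ B) (φ y) := by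
  unfold quartic
  simp only [map_sub, map_add, map_mul, map_pow, map_ofNat]

omit [IsAlgClosure ℚ Kb] in
/-- A rational cusp datum at `s = 0` is a cusp datum over `Kb`. -/
theorem isCusp_map (A B D : ℚ[X]) (hA : A.eval 0 ≠ 0) (hD0 : D.eval 0 ≠ 0)
    (hD : 4 * A ^ 3 + 27 * B ^ 2 = X ^ 5 * D) :
    haveI : CharZero Kb := charZero_of_injective_algebraMap (algebraMap ℚ Kb).injective
    IsCusp (A.map (algebraMap ℚ Kb)) (B.map (algebraMap ℚ Kb)) 0 := by
  have hc : CharZero Kb := charZero_of_injective_algebraMap (algebraMap ℚ Kb).injective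
  refine ⟨⟨D.map (algebraMap ℚ Kb), ?_, ?_⟩, ?_⟩
  · have h := congrArg (Polynomial.map (algebraMap ℚ Kb)) hD
    simpa [Polynomial.map_add, Polynomial.map_mul, Polynomial.map_pow] using h
  · have : (D.map (algebraMap ℚ Kb)).eval 0 = algebraMap ℚ Kb (D.eval 0) := by
      rw [← Polynomial.coeff_zero_eq_eval_zero, ← Polynomial.coeff_zero_eq_eval_zero,
        Polynomial.coeff_map]
    rw [this]
    exact fun h => hD0 ((map_eq_zero _).mp h)
  · have : (A.map (algebraMap ℚ Kb)).eval 0 = algebraMap ℚ Kb (A.eval 0) := by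
      rw [← Polynomial.coeff_zero_eq_eval_zero, ← Polynomial.coeff_zero_eq_eval_zero,
        Polynomial.coeff_map]
    rw [this]
    exact fun h => hA ((map_eq_zero _).mp h)

/-- **(3c): the unique root at a cusp is rational.** -/
theorem root_rational (A B D : ℚ[X]) (hA : A.eval 0 ≠ 0) (hD0 : D.eval 0 ≠ 0)
    (hD : 4 * A ^ 3 + 27 * B ^ 2 = X ^ 5 * D) (y : Kb[X])
    (hy : quartic (A.map (algebraMap ℚ Kb)) (B.map (algebraMap ℚ Kb)) y = 0) :
    ∃ Y : ℚ[X], Y.map (algebraMap ℚ Kb) = y ∧ quartic A B Y = 0 := by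
  have hc : CharZero Kb := charZero_of_injective_algebraMap (algebraMap ℚ Kb).injective
  have hcusp := isCusp_map (Kb := Kb) A B D hA hD0 hD
  set A' : Kb[X] := A.map (algebraMap ℚ Kb) with hA'
  set B' : Kb[X] := B.map (algebraMap ℚ Kb) with hB'
  have hfix : ∀ σ : Kb ≃ₐ[ℚ] Kb, y.map (σ : Kb →+* Kb) = y := by
    intro σ
    have hσ : ∀ P : ℚ[X], (P.map (algebraMap ℚ Kb)).map (σ : Kb →+* Kb)
        = P.map (algebraMap ℚ Kb) := by
      intro P
      rw [Polynomial.map_map]
      congr 1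
      ext q
      simp
    have hroot : quartic A' B' (y.map (σ : Kb →+* Kb)) = 0 := by
      have h := congrArg (Polynomial.mapRingHom (σ : Kb →+* Kb)) hy
      rw [map_quartic, map_zero] at h
      simpa [Polynomial.coe_mapRingHom, hA', hB', hσ] using h
    exact quartic_root_unique hcusp _ _ hroot hy
  obtain ⟨Y, hY⟩ := exists_map_eq_of_fixed y hfix
  refine ⟨Y, hY, ?_⟩
  apply Polynomial.map_injective (algebraMap ℚ Kb) (algebraMap ℚ Kb).injective
  have h := map_quartic (Polynomial.mapRingHom (algebraMap ℚ Kb)) A B Y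
  simp only [Polynomial.coe_mapRingHom] at h
  rw [h, hY, Polynomial.map_zero]
  exact hy

end Fermat.Agent.S52.T3.Generic.Descent
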