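/-
PROJECT W (S52, the 3-5 switch), leaf (T3)/(H1), step (3d) of the tree of record (helper13):
KLEIN'S OWN 3-DIVISION QUARTIC HAS NO ROOT IN `Kb[s]` (nor in `Kb(s)`), `Kb` an algebraic closure
of `ℚ`.

Klein's icosahedral forms at `v = 1`:
  `fs = s (s¹⁰ + 11 s⁵ − 1)`, `Hs = −(s²⁰ + 1) + 228 (s¹⁵ − s⁵) − 494 s¹⁰`,
  `Ts = (s³⁰ + 1) + 522 (s²⁵ − s⁵) − 10005 (s²⁰ + s¹⁰)`, `Ts² + Hs³ = 1728 fs⁵`.
The curve `E_s : y² = x³ + 3 Hs x + 2 Ts` has a cusp at `s = 0` with `v(Δ) = 5`, so by helper18's `Cusp.lean` and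
`Descent.lean` a root of its quartic in `Kb[s]` lies in `ℚ[s]`; its value at `s = 1` is a rational,
hence integral, root of `y⁴ + 18·(−1488) y² + 108·(−40016) y − 27·1488²` (the fibre `(f, H, T)(1,1) =
(11, −496, −20008)`, a twist of `11a1`), and this has no root modulo `5`.
-/
import Fermat.Agent.S52.T3.Generic.Descent

set_option autoImplicit false

namespace Fermat.Agent.S52.T3.Generic.Fibre

open Polynomial
open Fermat.Agent.S52.T3.Generic.Cusp
open Fermat.Agent.S52.T3.Generic.Descent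

section Forms

variable {R : Type*} [CommRing R]

/-- Klein's `f(s, 1)`. -/
noncomputable def fs : R[X] := X * (X ^ 10 + 11 * X ^ 5 - 1)

/-- Klein's `H(s, 1)`. -/
noncomputable def Hs : R[X] := -(X ^ 20 + 1) + 228 * (X ^ 15 - X ^ 5) - 494 * X ^ 10

/-- Klein's `T(s, 1)`. -/
noncomputable def Ts : R[X] :=
  (X ^ 30 + 1) + 522 * (X ^ 25 - X ^ 5) - 10005 * (X ^ 20 + X ^ 10)

/-- Klein's syzygy. -/
theorem syzygy : (Ts : R[X]) ^ 2 + Hs ^ 3 = 1728 * fs ^ 5 := by
  unfold Ts Hs fs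
  ring

theorem map_Hs {S : Type*} [CommRing S] (φ : R →+* S) : (Hs : R[X]).map φ = Hs := by
  simp [Hs, Polynomial.map_add, Polynomial.map_sub, Polynomial.map_mul, Polynomial.map_pow,
    Polynomial.map_neg]

theorem map_Ts {S : Type*} [CommRing S] (φ : R →+* S) : (Ts : R[X]).map φ = Ts := by
  simp [Ts, Polynomial.map_add, Polynomial.map_sub, Polynomial.map_mul, Polynomial.map_pow]

theorem map_fs {S : Type*} [CommRing S] (φ : R →+* S) : (fs : R[X]).map φ = fs := by
  simp [fs, Polynomial.map_add, Polynomial.map_sub, Polynomial.map_mul, Polynomial.map_pow]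

theorem eval_one_Hs : (Hs : R[X]).eval 1 = -496 := by
  simp [Hs]
  norm_num

theorem eval_one_Ts : (Ts : R[X]).eval 1 = -20008 := by
  simp [Ts]
  norm_num

end Forms

/-- Klein's quartic over a commutative ring: the 3-division quartic of `y² = x³ + 3 Hs x + 2 Ts`. -/
noncomputable def kleinQuartic {R : Type*} [CommRing R] (y : R[X]) : R[X] :=
  quartic (3 * Hs) (2 * Ts) y

theorem kleinQuartic_def {R : Type*} [CommRing R] (y : R[X]) :
    kleinQuartic y = y ^ 4 + 18 * (3 * Hs) * y ^ 2 + 108 * (2 * Ts) * y - 27 * (3 * Hs) ^ 2 := rfl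

/-- The discriminant datum at the cusp `s = 0`. -/
theorem cusp_datum :
    4 * (3 * (Hs : ℚ[X])) ^ 3 + 27 * (2 * Ts) ^ 2
      = X ^ 5 * (186624 * (X ^ 10 + 11 * X ^ 5 - 1) ^ 5) := by
  have h := syzygy (R := ℚ)
  have : 4 * (3 * (Hs : ℚ[X])) ^ 3 + 27 * (2 * Ts) ^ 2 = 108 * (Ts ^ 2 + Hs ^ 3) := by ring
  rw [this, h]
  unfold fs
  ring

/-- The fibre at `s = 1` has no root modulo `5`. -/
theorem fibre_mod_five (z : ZMod 5) :
    z ^ 4 + 18 * (-1488) * z ^ 2 + 108 * (-40016) * z - 27 * (-1488) ^ 2 ≠ 0 := by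
  revert z
  decide

/-- The integral quartic of the fibre at `s = 1`. -/
noncomputable def fibrePoly : ℤ[X] :=
  X ^ 4 + C (-26784) * X ^ 2 + C (-4321728) * X + C (-59781888)

theorem fibrePoly_monic : fibrePoly.Monic := by
  unfold fibrePoly
  rw [add_assoc, add_assoc]
  apply Polynomial.monic_X_pow_add
  refine lt_of_le_of_lt (Polynomial.degree_add_le _ _) ?_
  refine max_lt ?_ (lt_of_le_of_lt (Polynomial.degree_add_le _ _) (max_lt ?_ ?_))
  · exact lt_of_le_of_lt (Polynomial.degree_C_mul_X_pow_le 2 _) (by norm_num)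
  · exact lt_of_le_of_lt (Polynomial.degree_C_mul_X_le _) (by norm_num)
  · exact lt_of_le_of_lt Polynomial.degree_C_le (by norm_num)

theorem aeval_fibrePoly (z : ℚ) :
    aeval z fibrePoly = z ^ 4 + 18 * (-1488) * z ^ 2 + 108 * (-40016) * z - 27 * (-1488) ^ 2 := by
  simp only [fibrePoly, map_add, map_mul, map_pow, aeval_X, map_neg, map_ofNat]
  ring

/-- The fibre at `s = 1` has no rational root. -/
theorem fibre_no_rat_root (z : ℚ) :
    z ^ 4 + 18 * (-1488) * z ^ 2 + 108 * (-40016) * z - 27 * (-1488) ^ 2 ≠ 0 := by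
  intro hz
  have h0 : aeval z fibrePoly = 0 := by rw [aeval_fibrePoly]; exact hz
  obtain ⟨m, hm⟩ := isInteger_of_is_root_of_monic fibrePoly_monic h0
  rw [← hm] at hz
  have hint : (m ^ 4 + 18 * (-1488) * m ^ 2 + 108 * (-40016) * m - 27 * (-1488) ^ 2 : ℤ) = 0 := by
    have : ((m ^ 4 + 18 * (-1488) * m ^ 2 + 108 * (-40016) * m - 27 * (-1488) ^ 2 : ℤ) : ℚ) = 0 := by
      push_cast
      linear_combination hz
    exact_mod_cast this
  have h5 := congrArg (fun k : ℤ => (k : ZMod 5)) hint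
  simp only [Int.cast_sub, Int.cast_add, Int.cast_mul, Int.cast_pow, Int.cast_ofNat,
    Int.cast_neg, Int.cast_zero] at h5
  exact fibre_mod_five (m : ZMod 5) h5

/-- Klein's quartic has no root in `ℚ[s]`. -/
theorem kleinQuartic_ne_zero_rat (Y : ℚ[X]) : kleinQuartic Y ≠ 0 := by
  intro h
  have h1 := congrArg (Polynomial.eval 1) h
  rw [kleinQuartic_def] at h1
  simp only [Polynomial.eval_sub, Polynomial.eval_add, Polynomial.eval_mul, Polynomial.eval_pow,
    Polynomial.eval_ofNat, eval_one_Hs, eval_one_Ts, Polynomial.eval_zero] at h1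
  refine fibre_no_rat_root (Y.eval 1) ?_
  linear_combination h1

variable {Kb : Type*} [Field Kb] [Algebra ℚ Kb] [IsAlgClosure ℚ Kb]

/-- **(H1) for Klein's family: the 3-division quartic of `y² = x³ + 3 H(s,1) x + 2 T(s,1)` has no
root in `Kb[s]`.** -/
theorem klein_no_root (y : Kb[X]) : kleinQuartic y ≠ 0 := by
  intro hy
  have hmapH : ((3 * Hs : ℚ[X])).map (algebraMap ℚ Kb) = 3 * Hs := by
    rw [Polynomial.map_mul, map_Hs]; simp
  have hmapT : ((2 * Ts : ℚ[X])).map (algebraMap ℚ Kb) = 2 * Ts := by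
    rw [Polynomial.map_mul, map_Ts]; simp
  have hA : (3 * Hs : ℚ[X]).eval 0 ≠ 0 := by
    simp [Hs]
  have hg : (186624 * (X ^ 10 + 11 * X ^ 5 - 1) ^ 5 : ℚ[X]).eval 0 ≠ 0 := by
    simp
  obtain ⟨Y, -, hY⟩ := root_rational (Kb := Kb) (3 * Hs) (2 * Ts) _ hA hg cusp_datum y
    (by rw [hmapH, hmapT]; exact hy)
  exact kleinQuartic_ne_zero_rat Y hY

/-- The same for a root in the field of rational functions `Kb(s)`. -/
theorem klein_no_root_ratFunc (y : RatFunc Kb) :
    y ^ 4 + 18 * (3 * algebraMap Kb[X] (RatFunc Kb) Hs) * y ^ 2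
      + 108 * (2 * algebraMap Kb[X] (RatFunc Kb) Ts) * y
      - 27 * (3 * algebraMap Kb[X] (RatFunc Kb) Hs) ^ 2 ≠ 0 := by
  intro hy
  set P : Kb[X][X] :=
    X ^ 4 + (C (18 * (3 * Hs)) * X ^ 2 + C (108 * (2 * Ts)) * X + C (-(27 * (3 * Hs) ^ 2))) with hP
  have hmonic : P.Monic := by
    apply Polynomial.monic_X_pow_add
    refine lt_of_le_of_lt (Polynomial.degree_add_le _ _) ?_
    refine max_lt (lt_of_le_of_lt (Polynomial.degree_add_le _ _) (max_lt ?_ ?_)) ?_
    · exact lt_of_le_of_lt (Polynomial.degree_C_mul_X_pow_le 2 _) (by norm_num)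
    · exact lt_of_le_of_lt (Polynomial.degree_C_mul_X_le _) (by norm_num)
    · exact lt_of_le_of_lt Polynomial.degree_C_le (by norm_num)
  have hroot : aeval y P = 0 := by
    simp only [hP, map_add, map_mul, map_pow, aeval_X, aeval_C, map_neg, map_ofNat]
    linear_combination hy
  obtain ⟨q, hq⟩ := isInteger_of_is_root_of_monic hmonic hroot
  refine klein_no_root (Kb := Kb) q ?_
  apply RatFunc.algebraMap_injective Kb
  rw [kleinQuartic_def, map_zero]
  simp only [map_sub, map_add, map_mul, map_pow, map_ofNat, hq]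
  exact hy

end Fermat.Agent.S52.T3.Generic.Fibre
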