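import Mathlib
import Fermat.Agent.S52.KleinFamily
import Fermat.Agent.S52.T3.Generic.Cusp

/-!
# PROJECT W (S52), block T3/Generic, step (3a), second half: the transport

A root `Y ∈ ℚ[t]` of the quartic of the `W`-family `(3 Hf(h,k,Mt), 2 Tf(h,k,Mt))` is transported to
a root, in ANY field `F ⊇ ℚ`, of the quartic of a pair `(3 HH, 2 TT)` as soon as
`Hf(h,k,τ) = ν²⁰ HH`, `Tf(h,k,τ) = ν³⁰ TT` for some `τ ν : F`, `ν ≠ 0`: the root is
`Y(τ / M) / ν¹⁰` (`transport`).  In the application `F = ℚ̄(s)`, `τ = (s v₀ - u₀)/(x₀ - s x₁)`,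
`ν = (v₀ x₀ - u₀ x₁)/(x₀ - s x₁)`, `(HH, TT) = (H(s,1), T(s,1))` (Klein's forms), and the two
hypotheses are the substitution identities of the family along the line `P₀ + t X₀` together
with the homogeneity of `H`, `T`.

No degree bound on `Y`, no homogenisation, no Klein forms in this file.
-/

set_option autoImplicit false

namespace Fermat.Agent.S52.T3.Generic.Transport

open Polynomial
open Fermat.Agent.S52.KleinFamily
open Fermat.Agent.S52.T3.Generic.Cusp (quartic)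

section Naturality

variable {R S : Type*} [CommRing R] [CommRing S]

set_option maxRecDepth 100000 in
/-- `Hf` commutes with ring homomorphisms. -/
theorem map_Hf (φ : R →+* S) (h k t : R) : φ (Hf h k t) = Hf (φ h) (φ k) (φ t) := by
  simp only [Hf, hc0, hc1, hc2, hc3, hc4, hc5, hc6, hc7, hc8, hc9, hc10, hc11, hc12, hc13, hc14,
    hc15, hc16, hc17, hc18, hc19, hc20, map_add, map_mul, map_pow, map_neg, map_ofNat, map_one]

set_option maxRecDepth 100000 in
/-- `Tf` commutes with ring homomorphisms. -/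
theorem map_Tf (φ : R →+* S) (h k t : R) : φ (Tf h k t) = Tf (φ h) (φ k) (φ t) := by
  simp only [Tf, tc0, tc1, tc2, tc3, tc4, tc5, tc6, tc7, tc8, tc9, tc10, tc11, tc12, tc13, tc14,
    tc15, tc16, tc17, tc18, tc19, tc20, tc21, tc22, tc23, tc24, tc25, tc26, tc27, tc28, tc29, tc30,
    map_add, map_mul, map_pow, map_neg, map_ofNat, map_one]

set_option maxRecDepth 100000 in
/-- `df` commutes with ring homomorphisms. -/
theorem map_df (φ : R →+* S) (h k t : R) : φ (df h k t) = df (φ h) (φ k) (φ t) := by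
  simp only [df, dc0, dc1, dc2, dc3, dc4, dc5, dc6, dc7, dc8, dc9, dc10, dc11, dc12, map_add,
    map_mul, map_pow, map_neg, map_ofNat, map_one, map_zero]

/-- `quartic` commutes with ring homomorphisms. -/
theorem map_quartic (φ : R →+* S) (A B y : R) :
    φ (quartic A B y) = quartic (φ A) (φ B) (φ y) := by
  simp only [quartic, map_add, map_sub, map_mul, map_pow, map_ofNat]

end Naturality

section Homogeneity

variable {F : Type*} [Field F]

/-- weighted homogeneity of the quartic: weights `(A, B, y) = (2, 3, 1)`. -/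
theorem quartic_smul {R : Type*} [CommRing R] (c A B y : R) :
    quartic (c ^ 2 * A) (c ^ 3 * B) (c * y) = c ^ 4 * quartic A B y := by
  unfold quartic
  ring

theorem quartic_div {ν : F} (hν : ν ≠ 0) (A B y : F)
    (h : quartic (ν ^ 20 * A) (ν ^ 30 * B) y = 0) : quartic A B (y / ν ^ 10) = 0 := by
  have h1 := quartic_smul (ν ^ 10) A B (y / ν ^ 10)
  have h2 : ν ^ 10 * (y / ν ^ 10) = y := by field_simp
  rw [h2, ← pow_mul, ← pow_mul] at h1
  norm_num at h1
  rw [h] at h1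
  have h3 : (ν ^ 10) ^ 4 ≠ 0 := pow_ne_zero _ (pow_ne_zero _ hν)
  exact (mul_eq_zero.mp h1.symm).resolve_left h3

end Homogeneity

section Core

variable {F : Type*} [Field F] [Algebra ℚ F]

/-- **the transport.**  `Y ∈ ℚ[t]` a root of the quartic of `(3 Hf(h,k,Mt), 2 Tf(h,k,Mt))`; in a
field `F ⊇ ℚ` let `Hf(h,k,τ) = ν²⁰ HH` and `Tf(h,k,τ) = ν³⁰ TT` with `ν ≠ 0`.  Then
`Y(τ / M) / ν¹⁰` is a root of the quartic of `(3 HH, 2 TT)`. -/
theorem transport (h k M : ℚ) (hM : M ≠ 0) (Y : ℚ[X])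
    (hY : quartic (3 * Hf (C h) (C k) (C M * X)) (2 * Tf (C h) (C k) (C M * X)) Y = 0)
    (τ ν HH TT : F) (hν : ν ≠ 0)
    (hHf : Hf (algebraMap ℚ F h) (algebraMap ℚ F k) τ = ν ^ 20 * HH)
    (hTf : Tf (algebraMap ℚ F h) (algebraMap ℚ F k) τ = ν ^ 30 * TT) :
    quartic (3 * HH) (2 * TT) (aeval (τ / algebraMap ℚ F M) Y / ν ^ 10) = 0 := by
  have hM' : algebraMap ℚ F M ≠ 0 := by
    rw [Ne, map_eq_zero_iff _ (algebraMap ℚ F).injective]
    exact hM
  set x : F := τ / algebraMap ℚ F M with hx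
  have hMx : algebraMap ℚ F M * x = τ := by
    rw [hx]
    field_simp
  have h1 := congrArg (aeval x : ℚ[X] →ₐ[ℚ] F) hY
  rw [map_zero] at h1
  have h2 : (aeval x : ℚ[X] →ₐ[ℚ] F) (quartic (3 * Hf (C h) (C k) (C M * X))
      (2 * Tf (C h) (C k) (C M * X)) Y) =
      quartic (3 * Hf (algebraMap ℚ F h) (algebraMap ℚ F k) τ)
        (2 * Tf (algebraMap ℚ F h) (algebraMap ℚ F k) τ) (aeval x Y) := by
    have e1 := map_quartic ((aeval x : ℚ[X] →ₐ[ℚ] F) : ℚ[X] →+* F)
      (3 * Hf (C h) (C k) (C M * X)) (2 * Tf (C h) (C k) (C M * X)) Y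
    have e2 := map_Hf ((aeval x : ℚ[X] →ₐ[ℚ] F) : ℚ[X] →+* F) (C h) (C k) (C M * X)
    have e3 := map_Tf ((aeval x : ℚ[X] →ₐ[ℚ] F) : ℚ[X] →+* F) (C h) (C k) (C M * X)
    simp only [AlgHom.coe_toRingHom, map_mul, map_ofNat, aeval_C, aeval_X] at e1 e2 e3
    rw [e1, e2, e3, hMx]
  rw [h2, hHf, hTf] at h1
  refine quartic_div hν _ _ _ ?_
  have e : quartic (ν ^ 20 * (3 * HH)) (ν ^ 30 * (2 * TT)) (aeval x Y) =
      quartic (3 * (ν ^ 20 * HH)) (2 * (ν ^ 30 * TT)) (aeval x Y) := by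
    congr 1 <;> ring
  rw [e]
  exact h1

end Core

end Fermat.Agent.S52.T3.Generic.Transport
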