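/-
PROJECT W (S52, the 3-5 switch), leaf (T3)/(H1), THE LINE `P₀ + t X(P₀)` (helper13):
`GenericSeam` (helper9's literal) FROM THE TWO SUBSTITUTION IDENTITIES ALONE.

A root `Y ∈ ℚ[t]` of the 3-division quartic of the `W`-family
`E_t : y² = x³ + 3 Hf(h,k,t) x + 2 Tf(h,k,t)` gives a root in `Kb(s)` of the quartic of Klein's own family
`y² = x³ + 3 H(s,1) x + 2 T(s,1)` (`Kb` an algebraic closure of `ℚ`), which does not exist
(`Fibre.klein_no_root_ratFunc`).

Inputs: helper18's `Point.exists_point` (a point `P₀ = (u₀, v₀) ∈ Kb²` with `H(P₀) = h`, `T(P₀) = k`,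
`f(P₀) ≠ 0`), helper16's `Transport.map_Hf / map_Tf`, and, AS A HYPOTHESIS (`SubstHyp`, helper21's
`KleinCoprime`), the two substitution identities
`Hf (H P) (T P) t = H (P + t X(P))`, `Tf (H P) (T P) t = T (P + t X(P))`, `X(P) = (−f_v, f_u)(P)`.

Everything is value-level in the FIELD `F = Kb(s)`: with `(x₀, x₁) = X(P₀)`,
`c = v₀ x₀ − u₀ x₁ = −12 f(P₀) ≠ 0` (Euler), `τ = (s v₀ − u₀)/(x₀ − s x₁)`, `λ = c/(x₀ − s x₁)` one has
`P₀ + τ X(P₀) = λ (s, 1)`, the forms are homogeneous of degrees `20`, `30`, and `y = Y(τ)/λ¹⁰` is the root.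
-/
import Fermat.Agent.S52.T3.GenericSeam
import Fermat.Agent.S52.T3.Generic.Transport
import Fermat.Agent.S52.T3.Generic.Point
import Fermat.Agent.S52.T3.Generic.Fibre

set_option autoImplicit false

namespace Fermat.Agent.S52.T3.Generic.Line

open Polynomial
open Fermat.Agent.S52.KleinFamily
open Fermat.Agent.S52.T3.Generic.Point
open Fermat.Agent.S52.T3.Generic.Transport (map_Hf map_Tf)
open Fermat.Agent.S52.T3.Generic.Fibre

section Forms

variable {R : Type*} [CommRing R]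

/-- `∂f/∂u` for Klein's `f = u v (u¹⁰ + 11 u⁵ v⁵ − v¹⁰)`. -/
def kfu (u v : R) : R := 11 * u ^ 10 * v + 66 * u ^ 5 * v ^ 6 - v ^ 11

/-- `∂f/∂v`. -/
def kfv (u v : R) : R := u ^ 11 + 66 * u ^ 6 * v ^ 5 - 11 * u * v ^ 10

theorem euler (u v : R) : u * kfu u v + v * kfv u v = 12 * kf u v := by
  unfold kfu kfv kf
  ring

theorem map_kfu {S : Type*} [CommRing S] (φ : R →+* S) (u v : R) :
    φ (kfu u v) = kfu (φ u) (φ v) := by
  unfold kfu
  simp only [map_sub, map_add, map_mul, map_pow, map_ofNat]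

theorem map_kfv {S : Type*} [CommRing S] (φ : R →+* S) (u v : R) :
    φ (kfv u v) = kfv (φ u) (φ v) := by
  unfold kfv
  simp only [map_sub, map_add, map_mul, map_pow, map_ofNat]

/-- `H(s, 1)` is the polynomial `Hs` of `Fibre.lean`. -/
theorem kH_X_one : kH (X : R[X]) 1 = Hs := by
  unfold kH Hs
  ring

/-- `T(s, 1)` is the polynomial `Ts` of `Fibre.lean`. -/
theorem kT_X_one : kT (X : R[X]) 1 = Ts := by
  unfold kT Ts
  ring

end Forms

/-- **The two substitution identities** of the family along the line `P + t X(P)`,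
`X(P) = (−f_v(P), f_u(P))`, at a commutative ring `R` (ring identities in `ℤ[u, v, t]`). -/
def SubstAt (R : Type*) [CommRing R] : Prop :=
  ∀ u v t : R,
    Hf (kH u v) (kT u v) t = kH (u - t * kfv u v) (v + t * kfu u v) ∧
    Tf (kH u v) (kT u v) t = kT (u - t * kfv u v) (v + t * kfu u v)

section Main

variable {Kb : Type*} [Field Kb] [Algebra ℚ Kb] [IsAlgClosure ℚ Kb]

/-- **THE LINE.**  Given a point of Klein's cone over `(h, k)` and the two substitution identities over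
`RatFunc Kb`, the quartic of the `W`-family has no root in `ℚ[t]`. -/
theorem no_root_of_point (h k : ℚ) (u₀ v₀ : Kb) (hf₀ : kf u₀ v₀ ≠ 0)
    (hH₀ : kH u₀ v₀ = algebraMap ℚ Kb h) (hT₀ : kT u₀ v₀ = algebraMap ℚ Kb k)
    (hsub : SubstAt (RatFunc Kb)) :
    ¬ ∃ Y : ℚ[X],
      Y ^ 4 + 18 * (3 * Hf (C h) (C k) X) * Y ^ 2 + 108 * (2 * Tf (C h) (C k) X) * Y
        - 27 * (3 * Hf (C h) (C k) X) ^ 2 = 0 := by
  rintro ⟨Y, hY⟩
  have hc : CharZero Kb := charZero_of_injective_algebraMap (algebraMap ℚ Kb).injective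
  -- the field `F = Kb(s)` and the constants
  let ι : Kb →+* RatFunc Kb := algebraMap Kb (RatFunc Kb)
  let j : Kb[X] →+* RatFunc Kb := algebraMap Kb[X] (RatFunc Kb)
  have hjinj : Function.Injective j := RatFunc.algebraMap_injective Kb
  have hjC : ∀ a : Kb, j (C a) = ι a := fun a => (RatFunc.algebraMap_C a)
  have hjX : j X = RatFunc.X := RatFunc.algebraMap_X
  set S : RatFunc Kb := RatFunc.X with hS
  set a : Kb := -kfv u₀ v₀ with ha
  set b : Kb := kfu u₀ v₀ with hb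
  set c₀ : Kb := v₀ * a - u₀ * b with hc₀
  have hc₀ne : c₀ ≠ 0 := by
    have : c₀ = -12 * kf u₀ v₀ := by
      rw [hc₀, ha, hb]
      linear_combination (-1 : Kb) * euler u₀ v₀
    rw [this]
    exact mul_ne_zero (by norm_num) hf₀
  -- the denominator `d = x₀ − s x₁`
  set dP : Kb[X] := C a - X * C b with hdP
  have hdPne : dP ≠ 0 := by
    intro h0
    have h1 := congrArg (fun p : Kb[X] => p.coeff 0) h0
    have h2 := congrArg (fun p : Kb[X] => p.coeff 1) h0
    simp [hdP] at h1 h2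
    apply hc₀ne
    rw [hc₀, h1, h2]; ring
  set d : RatFunc Kb := j dP with hd
  have hdne : d ≠ 0 := by
    rw [hd]
    exact fun h0 => hdPne (hjinj (by rw [h0, map_zero]))
  have hd_eq : d = ι a - S * ι b := by
    rw [hd, hdP, map_sub, map_mul, hjC, hjC, hjX]
  set τ : RatFunc Kb := (S * ι v₀ - ι u₀) / d with hτ
  set lam : RatFunc Kb := ι c₀ / d with hlam
  have hlamne : lam ≠ 0 := by
    rw [hlam]
    exact div_ne_zero (fun h0 => hc₀ne ((map_eq_zero ι).mp h0)) hdne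
  -- the line `P₀ + τ X(P₀) = λ (s, 1)`
  have hKfv : kfv (ι u₀) (ι v₀) = -ι a := by
    rw [ha, map_neg, neg_neg, map_kfv]
  have hKfu : kfu (ι u₀) (ι v₀) = ι b := by
    rw [hb, map_kfu]
  have hline₁ : ι u₀ - τ * kfv (ι u₀) (ι v₀) = lam * S := by
    rw [hKfv, hτ, hlam, hc₀, map_sub, map_mul, map_mul]
    field_simp
    rw [hd_eq]; ring
  have hline₂ : ι v₀ + τ * kfu (ι u₀) (ι v₀) = lam * 1 := by
    rw [hKfu, hτ, hlam, hc₀, map_sub, map_mul, map_mul]
    field_simp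
    rw [hd_eq]; ring
  -- evaluate the identity at `t = τ`
  let φ : ℚ[X] →+* RatFunc Kb := Polynomial.eval₂RingHom (ι.comp (algebraMap ℚ Kb)) τ
  have hφC : ∀ q : ℚ, φ (C q) = ι (algebraMap ℚ Kb q) := fun q => by
    simp [φ]
  have hφX : φ X = τ := by simp [φ]
  have hE := congrArg φ hY
  simp only [map_sub, map_add, map_mul, map_pow, map_ofNat, map_zero, map_Hf, map_Tf, hφC,
    hφX] at hE
  rw [← hH₀, ← hT₀, map_kH, map_kT, (hsub _ _ _).1, (hsub _ _ _).2, hline₁, hline₂, kH_smul,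
    kT_smul] at hE
  -- Klein's forms at `(s, 1)`
  have hHS : kH S 1 = j Hs := by
    rw [← kH_X_one, map_kH, hjX, map_one]
  have hTS : kT S 1 = j Ts := by
    rw [← kT_X_one, map_kT, hjX, map_one]
  rw [hHS, hTS] at hE
  -- the root
  refine klein_no_root_ratFunc (Kb := Kb) (φ Y / lam ^ 10) ?_
  have hl : lam ^ 40 ≠ 0 := pow_ne_zero _ hlamne
  apply mul_left_cancel₀ hl
  rw [mul_zero]
  have hl10 : lam ^ 10 ≠ 0 := pow_ne_zero _ hlamne
  field_simp
  linear_combination hE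

/-- **(H1) for every pair `(h, k)` with `k² + h³ ≠ 0`**, from the substitution identities over
`RatFunc (AlgebraicClosure ℚ)`. -/
theorem no_root_of_disc (hsub : SubstAt (RatFunc (AlgebraicClosure ℚ))) (h k : ℚ)
    (hdisc : k ^ 2 + h ^ 3 ≠ 0) :
    ¬ ∃ Y : ℚ[X],
      Y ^ 4 + 18 * (3 * Hf (C h) (C k) X) * Y ^ 2 + 108 * (2 * Tf (C h) (C k) X) * Y
        - 27 * (3 * Hf (C h) (C k) X) ^ 2 = 0 := by
  have hd : (algebraMap ℚ (AlgebraicClosure ℚ) k) ^ 2
      + (algebraMap ℚ (AlgebraicClosure ℚ) h) ^ 3 ≠ 0 := by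
    rw [← map_pow, ← map_pow, ← map_add]
    exact fun h0 => hdisc ((map_eq_zero _).mp h0)
  obtain ⟨u₀, v₀, hH₀, hT₀, hf₀⟩ := exists_point (K := AlgebraicClosure ℚ) _ _ hd
  exact no_root_of_point h k u₀ v₀ hf₀ hH₀ hT₀ hsub

/-- **`GenericSeam` (helper9's literal) from the substitution identities.**  Only `Δ ≠ 0` is used. -/
theorem genericSeam_of_subst (hsub : SubstAt (RatFunc (AlgebraicClosure ℚ))) :
    Fermat.Agent.S52.T3.GenericSeam := by
  intro W hΔ _
  apply no_root_of_disc hsub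
  have h := Fermat.Agent.S52.Seam.kOf_sq_add_hOf_cube W
  have h' : ((Fermat.Agent.S52.Seam.kOf W : ℤ) : ℚ) ^ 2 + ((Fermat.Agent.S52.Seam.hOf W : ℤ) : ℚ) ^ 3
      = ((-(729 * 1728) * W.Δ : ℤ) : ℚ) := by
    rw [← h]; push_cast; ring
  rw [h']
  have : (-(729 * 1728) * W.Δ : ℤ) ≠ 0 := mul_ne_zero (by norm_num) hΔ
  exact_mod_cast this

end Main

end Fermat.Agent.S52.T3.Generic.Line
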